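import Mathlib
import Fermat.Agent.S28.H806.LemmaM
import Fermat.Agent.S18.H516.GaussDecomp

/-!
# S18 / MOD — G-QEP (helper36): the `q`-expansion principle on every chart

Setting of `H516` (on main): `A` a valuation subring of a field `L ⊇ ℚ`, `π : A →+* k` a ring hom
to a field with `CoreData N k` (S28), whose kernel is generated by `w` (DVR situation).
`F_L = laurentBaseChange L (modularFunctionFieldFull N)`.

* `InGauss A π b` : `b ∈ L((q))` lies in the Gauss valuation ring (fraction form `U₁ / U₂`,
  `U₂ ≢ 0`), as in `Mod.VcSet`.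
* `phi A x' : A[X] →+* L((q))`, `P ↦ P(x')` for a coordinate series `x' ∈ A((q))`.
* `exists_denominator` : for `b ∈ F_L` in the Gauss ring there is `s ∈ A[X]`, `s̄ ≠ 0`, with
  `s(j) b` integral over `A[j]`.
* **`isIntegralElem_of_coord`** (QEP): let `x'` be a coordinate with `u(x') j = v(x')`
  (`u, v ∈ A[X]`, `ū ≠ 0`; e.g. `x' = j, 1/j, t₂, 1/t₂, t₃, 1/t₃`).  If `b ∈ F_L` lies in the
  Gauss ring and `w b` is integral over `A[x']`, then `b` is integral over `A[x']`.

Proof: denominators from the S28 basis (independence mod `w`), change of coordinate by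
localisation at `u`, and Lemma M of S28 (`H806/LemmaM.lean`).
-/

set_option autoImplicit false
set_option linter.unusedSectionVars false
set_option linter.style.haveILetI false

noncomputable section

namespace Fermat.Agent.S18.H36

open ModularCurve IntermediateField Polynomial Fermat.Agent.S28 Fermat.Agent.S18.H516

section Ev

variable {R S : Type*} [CommRing R] [CommRing S]

/-- `P ↦ P(x)`: evaluation of polynomials at a Laurent series, as a ring hom. -/
def evHom (x : LaurentSeries R) : R[X] →+* LaurentSeries R :=
  Polynomial.eval₂RingHom (HahnSeries.C (Γ := ℤ) (R := R)) x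

theorem evHom_apply (x : LaurentSeries R) (P : R[X]) :
    evHom x P = P.eval₂ (HahnSeries.C (Γ := ℤ) (R := R)) x := rfl

theorem evHom_jq (P : R[X]) : evHom (jqModC R) P = evJ P := rfl

@[simp] theorem evHom_X (x : LaurentSeries R) : evHom x X = x := by
  rw [evHom_apply, eval₂_X]

@[simp] theorem evHom_C (x : LaurentSeries R) (a : R) : evHom x (C a) = HahnSeries.C a := by
  rw [evHom_apply, eval₂_C]

theorem coeffMap_evHom (f : R →+* S) (x : LaurentSeries R) (P : R[X]) :
    coeffMap f (evHom x P) = evHom (coeffMap f x) (P.map f) := by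
  rw [evHom_apply, evHom_apply, hom_eval₂, eval₂_map]
  congr 1
  ext a
  exact congrArg (fun z : LaurentSeries S => z.coeff _) (coeffMap_C f a)

theorem evHom_injective [IsDomain R] (x : LaurentSeries R) (hx : x.order ≠ 0) :
    Function.Injective (evHom x) := by
  rw [injective_iff_map_eq_zero]
  intro p hp
  exact Fermat.Agent.S28.H806.eq_zero_of_eval₂_C_eq_zero x hx p hp

end Ev

section Main

variable {L : Type*} [Field L] [Algebra ℚ L] (A : ValuationSubring L)
variable {k : Type} [Field k] (π : A →+* k) (N : ℕ) [NeZero N]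

/-- `b` lies in the Gauss valuation ring: `b = U₁ / U₂` with `U₁, U₂ ∈ A((q))`, `Ū₂ ≠ 0`. -/
def InGauss (b : LaurentSeries L) : Prop :=
  ∃ U₁ U₂ : LaurentSeries A, coeffMap π U₂ ≠ 0 ∧
    b * coeffMap A.subtype U₂ = coeffMap A.subtype U₁

/-- The structure map `A[X] → L((q))`, `P ↦ P(x')`. -/
def phi (x' : LaurentSeries A) : A[X] →+* LaurentSeries L :=
  (coeffMap A.subtype).comp (evHom x')

/-- The reduction `A[X] → k((q))`, `P ↦ P̄(x̄')`. -/
def rho (x' : LaurentSeries A) : A[X] →+* LaurentSeries k :=
  (coeffMap π).comp (evHom x')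

theorem phi_apply (x' : LaurentSeries A) (P : A[X]) :
    phi A x' P = coeffMap A.subtype (evHom x' P) := rfl

theorem rho_apply (x' : LaurentSeries A) (P : A[X]) :
    rho A π x' P = coeffMap π (evHom x' P) := rfl

theorem rho_eq (x' : LaurentSeries A) (P : A[X]) :
    rho A π x' P = evHom (coeffMap π x') (P.map π) := by
  rw [rho_apply, coeffMap_evHom]

theorem phi_injective (x' : LaurentSeries A) (hx : x'.order ≠ 0) :
    Function.Injective (phi A x') :=
  (incl_injective A).comp (evHom_injective x' hx)

theorem rho_eq_zero_iff (x' : LaurentSeries A) (hx : (coeffMap π x').order ≠ 0) (P : A[X]) :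
    rho A π x' P = 0 ↔ P.map π = 0 := by
  rw [rho_eq]
  constructor
  · intro h
    exact evHom_injective _ hx (by rw [h, map_zero])
  · intro h
    rw [h, map_zero]

/-- Elements of `ℤ[j_d : d ∣ N]` are integral over `A[j]`. -/
theorem isIntegralElem_of_mem_closure (core : CoreData N k) {y : LaurentSeries ℤ}
    (hy : y ∈ Subring.closure (intDivisorExpansions N)) :
    (phi A (jqModC A)).IsIntegralElem (coeffMap (Int.castRingHom L) y) := by
  induction hy using Subring.closure_induction with
  | mem x hx =>
    obtain ⟨d, hd, hdN, rfl⟩ := hx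
    obtain ⟨P, hP, hroot⟩ := core.integral d hdN
    refine ⟨P.map (Polynomial.mapRingHom (Int.castRingHom A)), hP.map _, ?_⟩
    rw [eval₂_map]
    have hcomp : (phi A (jqModC A)).comp (Polynomial.mapRingHom (Int.castRingHom A)) =
        (coeffMap (Int.castRingHom L)).comp (evalAt (jqModC ℤ)) := by
      apply Polynomial.ringHom_ext
      · intro a
        simp only [RingHom.comp_apply, Polynomial.coe_mapRingHom, Polynomial.map_C, phi_apply,
          evHom_C, coeffMap_C]
        have : evalAt (jqModC ℤ) (C a) = HahnSeries.C (Γ := ℤ) a := by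
          simp [evalAt]
        rw [this, coeffMap_C]
        simp
      · simp only [RingHom.comp_apply, Polynomial.coe_mapRingHom, Polynomial.map_X, phi_apply,
          evHom_X]
        have : evalAt (jqModC ℤ) X = jqModC ℤ := by simp [evalAt]
        rw [this, coeffMap_jqModC, coeffMap_jqModC]
    rw [hcomp, ← hom_eval₂, hroot, map_zero]
  | zero => rw [map_zero]; exact (phi A (jqModC A)).isIntegralElem_zero
  | one => rw [map_one]; exact (phi A (jqModC A)).isIntegralElem_one
  | add x y _ _ hx hy => rw [map_add]; exact RingHom.IsIntegralElem.add _ hx hy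
  | neg x _ hx => rw [map_neg]; exact RingHom.IsIntegralElem.neg _ hx
  | mul x y _ _ hx hy => rw [map_mul]; exact RingHom.IsIntegralElem.mul _ hx hy

/-- **Denominators.** For `b ∈ F_L` in the Gauss ring there is `s ∈ A[X]` with `s̄ ≠ 0` such that
`s(j) b` is integral over `A[j]`. -/
theorem exists_denominator (core : CoreData N k) {b : LaurentSeries L}
    (hb : b ∈ laurentBaseChange L (modularFunctionFieldFull N)) (hV : InGauss A π b) :
    ∃ s : A[X], s.map π ≠ 0 ∧
      (phi A (jqModC A)).IsIntegralElem (phi A (jqModC A) s * b) := by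
  classical
  obtain ⟨n, y, hy, hspan, hli⟩ := core.exists_basis
  have hS : SpansQ N y := ⟨hy, hspan⟩
  have hbs := (mem_baseChange_iff_mem_spanL L hS).mp hb
  obtain ⟨G, H, hG, hGH⟩ := exists_cleared L _ hbs
  -- joint scaling of `(G, H)`
  obtain ⟨c, H', hc, hH', i0, m0, h1⟩ :=
    exists_scale A (Fin.cons G H : Fin (n + 1) → L[X]) ⟨0, by simpa using hG⟩
  set s : A[X] := H' 0 with hs
  set a : Fin n → A[X] := fun i => H' i.succ with ha
  have hsL : coeffMap A.subtype (evJ s) = HahnSeries.C c⁻¹ * evJ G := by
    rw [coeffMap_evJ, hs, hH' 0, evJ_mul, evJ_C]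
    simp
  have haL : ∀ i, coeffMap A.subtype (evJ (a i)) = HahnSeries.C c⁻¹ * evJ (H i) := by
    intro i
    rw [coeffMap_evJ, ha, hH' i.succ, evJ_mul, evJ_C]
    simp
  have hyL : ∀ i, coeffMap A.subtype (coeffMap (Int.castRingHom A) (y i)) =
      coeffMap (Int.castRingHom L) (y i) := by
    intro i
    rw [coeffMap_coeffMap,
      show (A.subtype.comp (Int.castRingHom A)) = Int.castRingHom L from RingHom.ext_int _ _]
  -- the relation over `L`
  have hrel : coeffMap A.subtype (evJ s) * b =
      ∑ i, coeffMap A.subtype (evJ (a i)) * coeffMap (Int.castRingHom L) (y i) := by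
    rw [hsL, mul_assoc, hGH, Finset.mul_sum]
    refine Finset.sum_congr rfl fun i _ => ?_
    rw [haL i]
    ring
  refine ⟨s, ?_, ?_⟩
  · -- `s̄ ≠ 0`
    intro hs0
    obtain ⟨U₁, U₂, hU₂, hU⟩ := hV
    -- relation over `A`
    have hrelA : evJ s * U₁ =
        (∑ i, evJ (a i) * coeffMap (Int.castRingHom A) (y i)) * U₂ := by
      apply incl_injective A
      rw [map_mul, map_mul, map_sum, ← hU]
      have : ∀ i, coeffMap A.subtype (evJ (a i) * coeffMap (Int.castRingHom A) (y i)) =
          coeffMap A.subtype (evJ (a i)) * coeffMap (Int.castRingHom L) (y i) := by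
        intro i
        rw [map_mul, hyL i]
      simp only [this]
      rw [← hrel]
      ring
    have hredrel := congrArg (coeffMap π) hrelA
    rw [map_mul, map_mul, coeffMap_evJ, hs0, evJ_zero, zero_mul, map_sum] at hredrel
    have hsum0 : ∑ i, evJ ((a i).map π) * coeffMap (Int.castRingHom k) (y i) = 0 := by
      have h2 : (∑ i, coeffMap π (evJ (a i) * coeffMap (Int.castRingHom A) (y i))) = 0 := by
        rcases mul_eq_zero.mp hredrel.symm with h | h
        · exact h
        · exact absurd h hU₂
      rw [← h2]
      refine Finset.sum_congr rfl fun i _ => ?_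
      rw [map_mul, coeffMap_evJ, coeffMap_coeffMap,
        show (π.comp (Int.castRingHom A)) = Int.castRingHom k from RingHom.ext_int _ _]
    have hall : ∀ i, (a i).map π = 0 := by
      intro i
      have hli' := Fintype.linearIndependent_iff.mp hli
        (fun i => (⟨evJ ((a i).map π), evJ_mem_jField k _⟩ : jField k)) hsum0 i
      have h3 : evJ ((a i).map π) = 0 := congrArg Subtype.val hli'
      exact (evJ_eq_zero_iff k).mp h3
    -- the coefficient `1` survives
    have hH0 : ∀ i, (H' i).map π = 0 := by
      intro i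
      refine Fin.cases ?_ (fun j => ?_) i
      · exact hs0
      · exact hall j
    have h4 := congrArg (fun P : k[X] => P.coeff m0) (hH0 i0)
    simp only [Polynomial.coeff_map, Polynomial.coeff_zero, h1, map_one] at h4
    exact one_ne_zero h4
  · -- integrality
    have hphi : phi A (jqModC A) s * b =
        ∑ i, phi A (jqModC A) (a i) * coeffMap (Int.castRingHom L) (y i) := by
      simp only [phi_apply, evHom_jq]
      exact hrel
    rw [hphi]
    refine Finset.sum_induction _ (fun z => (phi A (jqModC A)).IsIntegralElem z)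
      (fun _ _ hx hy => RingHom.IsIntegralElem.add _ hx hy)
      (phi A (jqModC A)).isIntegralElem_zero ?_
    intro i _
    exact RingHom.IsIntegralElem.mul _ ((phi A (jqModC A)).isIntegralElem_map)
      (isIntegralElem_of_mem_closure A N core (hy i))

theorem rho_pow_ne_zero (x' : LaurentSeries A) (hx : (coeffMap π x').order ≠ 0) {u : A[X]}
    (hu : u.map π ≠ 0) {m : A[X]} (hm : m ∈ Submonoid.powers u) : rho A π x' m ≠ 0 := by
  obtain ⟨e, rfl⟩ := hm
  rw [map_pow]
  exact pow_ne_zero _ fun h => hu ((rho_eq_zero_iff A π x' hx u).mp h)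

/-- **QEP on the chart of a coordinate `x'`.**  Let `x' ∈ A((q))` be a series of nonzero order,
also after reduction, with `u(x') · j = v(x')` for polynomials `u, v ∈ A[X]`, `ū ≠ 0`.
If `b ∈ F_L` lies in the Gauss valuation ring and `w · b` is integral over `A[x']`, then `b` is
integral over `A[x']`.  (`w` generates the kernel of `π`.) -/
theorem isIntegralElem_of_coord (core : CoreData N k) (w : A) (hw0 : w ≠ 0) (hw : π w = 0)
    (hker : ∀ a : A, π a = 0 → w ∣ a)
    (x' : LaurentSeries A) (hx0 : x'.order ≠ 0) (hx : (coeffMap π x').order ≠ 0)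
    (u v : A[X]) (hu : u.map π ≠ 0) (huv : evHom x' u * jqModC A = evHom x' v)
    {b : LaurentSeries L} (hb : b ∈ laurentBaseChange L (modularFunctionFieldFull N))
    (hV : InGauss A π b)
    (hint : (phi A x').IsIntegralElem (phi A x' (C w) * b)) :
    (phi A x').IsIntegralElem b := by
  classical
  obtain ⟨s, hs, hz⟩ := exists_denominator A π N core hb hV
  have hφ'inj : Function.Injective (phi A x') := phi_injective A x' hx0
  have hu0 : u ≠ 0 := fun h => hu (by rw [h, Polynomial.map_zero])
  have hφu : phi A x' u ≠ 0 := fun h => hu0 (hφ'inj (by rw [h, map_zero]))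
  have hφuv : phi A x' u * coeffMap A.subtype (jqModC A) = phi A x' v := by
    rw [phi_apply, phi_apply, ← map_mul, huv]
  -- localisation at `u`
  let g : Localization.Away u →+* LaurentSeries L :=
    IsLocalization.Away.lift (S := Localization.Away u) u (g := phi A x') hφu.isUnit
  have hg : ∀ a : A[X], g (algebraMap A[X] (Localization.Away u) a) = phi A x' a :=
    fun a => IsLocalization.Away.lift_eq u hφu.isUnit a
  let ψ : A[X] →+* Localization.Away u :=
    Polynomial.eval₂RingHom ((algebraMap A[X] (Localization.Away u)).comp Polynomial.C)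
      (algebraMap A[X] (Localization.Away u) v *
        IsLocalization.Away.invSelf (S := Localization.Away u) u)
  have hginv : phi A x' u * g (IsLocalization.Away.invSelf (S := Localization.Away u) u) = 1 := by
    rw [← hg u, ← map_mul, IsLocalization.Away.mul_invSelf, map_one]
  have hcomp : g.comp ψ = phi A (jqModC A) := by
    apply Polynomial.ringHom_ext
    · intro a
      simp only [ψ, RingHom.comp_apply, Polynomial.coe_eval₂RingHom, eval₂_C]
      rw [hg, phi_apply, phi_apply, evHom_C, evHom_C]
    · simp only [ψ, RingHom.comp_apply, Polynomial.coe_eval₂RingHom, eval₂_X]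
      rw [map_mul, hg, phi_apply (x' := jqModC A), evHom_X, ← hφuv, mul_assoc, mul_comm _ (g _),
        ← mul_assoc, hginv, one_mul]
  have hz' : g.IsIntegralElem (phi A (jqModC A) s * b) :=
    RingHom.IsIntegralElem.of_comp (f := ψ) (g := g) (by rw [hcomp]; exact hz)
  letI algK : Algebra A[X] (LaurentSeries L) := (phi A x').toAlgebra
  letI algRmK : Algebra (Localization.Away u) (LaurentSeries L) := g.toAlgebra
  haveI : IsScalarTower A[X] (Localization.Away u) (LaurentSeries L) :=
    IsScalarTower.of_algebraMap_eq fun a => (hg a).symm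
  obtain ⟨⟨m, hm⟩, hmz⟩ := IsIntegral.exists_multiple_integral_of_isLocalization
    (Submonoid.powers u) (Rₘ := Localization.Away u) (phi A (jqModC A) s * b) hz'
  have hmz' : (phi A x').IsIntegralElem (phi A x' m * (phi A (jqModC A) s * b)) := hmz
  -- clear the denominator of `s(j)`
  obtain ⟨⟨p', ⟨m', hm'⟩⟩, hp'⟩ := IsLocalization.surj (Submonoid.powers u) (ψ s)
  have hp'' : phi A (jqModC A) s * phi A x' m' = phi A x' p' := by
    have := congrArg g hp'
    rwa [map_mul, hg, hg, ← RingHom.comp_apply, hcomp] at this
  -- the multiplier `S = m * p'`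
  have hS : (phi A x').IsIntegralElem (phi A x' (m * p') * b) := by
    have e : phi A x' (m * p') * b = phi A x' m' * (phi A x' m * (phi A (jqModC A) s * b)) := by
      rw [map_mul, ← hp'']
      ring
    rw [e]
    exact RingHom.IsIntegralElem.mul _ ((phi A x').isIntegralElem_map) hmz'
  have hρS : rho A π x' (m * p') ≠ 0 := by
    rw [map_mul]
    refine mul_ne_zero (rho_pow_ne_zero A π x' hx hu hm) ?_
    have h1 : evJ s * evHom x' m' = evHom x' p' := by
      apply incl_injective A
      rw [map_mul]
      exact hp''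
    have h2 := congrArg (coeffMap π) h1
    rw [map_mul, coeffMap_evJ] at h2
    have h3 : rho A π x' p' = evJ (s.map π) * rho A π x' m' := h2.symm
    rw [h3]
    refine mul_ne_zero (fun h => hs ((evJ_eq_zero_iff k).mp h))
      (rho_pow_ne_zero A π x' hx hu hm')
  -- Lemma M
  haveI : Module.IsTorsionFree A[X] (LaurentSeries L) := by
    refine ⟨fun r hr a c hac => ?_⟩
    have hr0 : r ≠ 0 := hr.ne_zero
    have hφr : phi A x' r ≠ 0 := fun h => hr0 (hφ'inj (by rw [h, map_zero]))
    have hac' : phi A x' r * a = phi A x' r * c := hac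
    exact mul_left_cancel₀ hφr hac'
  have hCw : (C w : A[X]) ≠ 0 := fun h => hw0 (Polynomial.C_eq_zero.mp h)
  have hell : rho A π x' (C w) = 0 := by
    rw [rho_eq, Polynomial.map_C, hw, Polynomial.C_0, map_zero]
  have hkerP : ∀ p : A[X], rho A π x' p = 0 → C w ∣ p := by
    intro p hp
    have hp0 := (rho_eq_zero_iff A π x' hx p).mp hp
    rw [Polynomial.C_dvd_iff_dvd_coeff]
    intro i
    apply hker
    have := congrArg (fun P : k[X] => P.coeff i) hp0
    simpa using this
  exact Fermat.Agent.S28.H806.isIntegral_of_isIntegral_smul_of_isIntegral_smul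
    (rho A π x') (C w) (m * p') hCw hell hkerP hρS b hint hS

/-- **QEP on the `j`-chart** (`x' = j`, `u = 1`, `v = X`). -/
theorem isIntegralElem_j (core : CoreData N k) (w : A) (hw0 : w ≠ 0) (hw : π w = 0)
    (hker : ∀ a : A, π a = 0 → w ∣ a)
    {b : LaurentSeries L} (hb : b ∈ laurentBaseChange L (modularFunctionFieldFull N))
    (hV : InGauss A π b)
    (hint : (phi A (jqModC A)).IsIntegralElem (phi A (jqModC A) (C w) * b)) :
    (phi A (jqModC A)).IsIntegralElem b := by
  refine isIntegralElem_of_coord A π N core w hw0 hw hker (jqModC A)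
    (Fermat.Agent.S28.H806.jqModC_order_ne_zero A) ?_ 1 X ?_ ?_ hb hV hint
  · rw [coeffMap_jqModC]
    exact Fermat.Agent.S28.H806.jqModC_order_ne_zero k
  · rw [Polynomial.map_one]
    exact one_ne_zero
  · rw [map_one, one_mul, evHom_X]

end Main

end Fermat.Agent.S18.H36
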